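/-
S56 / GEC / block H2F, leaf (A) (row 455, helper18): `h2f_general` VERBATIM from `Gec/H2/Spec.lean`.

For a perfect pair `(V, W, β)` with the S55 duality package (for the pair and its flip) and left
non-degeneracy of `pair02` of the flipped pair:
  `H²(V)` is finite-dimensional and `h²(V) + h⁰(W) = dim Ш¹(W) + Σ_v h⁰(Γ_v, W)`.

Squeeze:
  (≤)  `θ¹ : H_c¹(W) → H²(V)^∨` is surjective and `H⁰(W) ↪ P⁰(W) → H_c¹(W) → H¹(W) → P¹(W)` is exact;
  (≥)  `h²(V) = dim Ш²(V) + dim im(loc²)`, `dim Ш²(V) = dim Ш¹(W)`, `im(loc²) = ker (θ³ ∘ ∂³)`,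
       `dim P²(V) ≥ dim P⁰(W)`.
Helper names are prefixed `h2fa_`.
-/
import Fermat.Agent.S55.Top.MainSpec
import Fermat.Agent.S55.Top.CritA

set_option autoImplicit false
set_option linter.style.haveILetI false
set_option linter.unusedSectionVars false

noncomputable section

namespace Fermat.Agent.S56

open Fermat.Agent.S55 Module

/-! ### linear algebra -/

section LinAlg

variable {k : Type*} [Field k] {A B C : Type*} [AddCommGroup A] [Module k A] [AddCommGroup B]
  [Module k B] [AddCommGroup C] [Module k C]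

/-- the middle term of an exact sequence with finite-dimensional ends is finite-dimensional -/
theorem h2fa_finite_of_exact (f : A →ₗ[k] B) (g : B →ₗ[k] C) (h : Function.Exact f g)
    [Module.Finite k A] (hC : Module.Finite k ↥(LinearMap.range g)) : Module.Finite k B := by
  haveI : Module.Finite k ↥(LinearMap.ker g) := by
    rw [LinearMap.exact_iff.mp h]
    infer_instance
  haveI : Module.Finite k (B ⧸ LinearMap.ker g) := Module.Finite.equiv g.quotKerEquivRange.symm
  exact Module.Finite.of_submodule_quotient (LinearMap.ker g)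

/-- the dimension count for an exact sequence `A → B → C` -/
theorem h2fa_finrank_of_exact (f : A →ₗ[k] B) (g : B →ₗ[k] C) (h : Function.Exact f g)
    [Module.Finite k A] [Module.Finite k B] :
    finrank k B + finrank k ↥(LinearMap.ker f) =
      finrank k A + finrank k ↥(LinearMap.range g) := by
  have h1 := LinearMap.finrank_range_add_finrank_ker g
  have h2 := LinearMap.finrank_range_add_finrank_ker f
  rw [LinearMap.exact_iff.mp h] at h1
  omega

/-- a pairing that is non-degenerate on both sides, with one side finite-dimensional -/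
theorem h2fa_finrank_eq_of_pairing (b : A →ₗ[k] B →ₗ[k] k) [Module.Finite k A]
    (hl : ∀ y, (∀ x, b y x = 0) → y = 0) (hr : ∀ x, (∀ y, b y x = 0) → x = 0) :
    Module.Finite k B ∧ finrank k B = finrank k A := by
  have hinjl : Function.Injective b := by
    rw [← LinearMap.ker_eq_bot, LinearMap.ker_eq_bot']
    intro y hy
    exact hl y fun x => by rw [hy, LinearMap.zero_apply]
  have hinjr : Function.Injective b.flip := by
    rw [← LinearMap.ker_eq_bot, LinearMap.ker_eq_bot']
    intro x hx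
    refine hr x fun y => ?_
    have := LinearMap.congr_fun hx y
    rwa [LinearMap.flip_apply, LinearMap.zero_apply] at this
  haveI : Module.Finite k B := Module.Finite.of_injective b.flip hinjr
  refine ⟨inferInstance, le_antisymm ?_ ?_⟩
  · have := LinearMap.finrank_le_finrank_of_injective hinjr
    rwa [Subspace.dual_finrank_eq] at this
  · have := LinearMap.finrank_le_finrank_of_injective hinjl
    rwa [Subspace.dual_finrank_eq] at this

end LinAlg

section General

universe u

variable {k : Type u} [Field k] [Finite k] {G : Type u} [Group G] {𝓛 : Levels G}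
  {ι : Type*} [Fintype ι] [Nonempty ι] {Γ : ι → Type*} [∀ v, Group (Γ v)] (D : LocSys 𝓛 ι Γ)
  (χ : G →* kˣ)
  {V W : Type u} [AddCommGroup V] [Module k V] [AddCommGroup W] [Module k W]
  {ρV : Representation k G V} {ρW : Representation k G W} {β : V →ₗ[k] W →ₗ[k] k}

omit [Finite k] [Fintype ι] in
/-- total localisation in degree `0` is injective when there is at least one place -/
theorem h2fa_locP0_injective : Function.Injective (locP0 D (ρ := ρW)) := by
  intro x y hxy
  obtain ⟨v⟩ := ‹Nonempty ι›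
  have := congrArg (fun b : ∀ v, ↥(smH0 (D.rep ρW v)) => ((b v : ↥(smH0 (D.rep ρW v))) : W)) hxy
  exact Subtype.ext this

set_option maxSynthPendingDepth 3 in
omit [Finite k] in
/-- `H_c¹(W)` is finite-dimensional and `dim H_c¹(W) + h⁰(W) = dim P⁰(W) + dim Ш¹(W)` -/
theorem h2fa_hc1 [FiniteDimensional k W] (hW : IsSmoothRep 𝓛 ρW)
    (hsha : FiniteDimensional k ↥(sha1 D ρW)) :
    Module.Finite k (smHc1 D ρW) ∧
    finrank k (smHc1 D ρW) + finrank k ↥(smH0 ρW) =
      finrank k (∀ v, ↥(smH0 (D.rep ρW v))) + finrank k ↥(sha1 D ρW) := by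
  have hab := exact_locP0_bdry1 D hW
  have hbc := exact_bdry1_jc1 D hW
  have hcd := exact_jc1_locP1 D hW
  have hrange : LinearMap.range (jc1 D (ρ := ρW)) = sha1 D ρW :=
    (LinearMap.exact_iff.mp hcd).symm
  have hfin : Module.Finite k (smHc1 D ρW) := by
    refine h2fa_finite_of_exact (bdry1 D (ρ := ρW)) (jc1 D (ρ := ρW)) hbc ?_
    rw [hrange]
    exact hsha
  refine ⟨hfin, ?_⟩
  have h1 := h2fa_finrank_of_exact (bdry1 D (ρ := ρW)) (jc1 D (ρ := ρW)) hbc
  rw [hrange, LinearMap.exact_iff.mp hab,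
    LinearMap.finrank_range_of_inj (h2fa_locP0_injective D)] at h1
  exact h1

set_option maxSynthPendingDepth 3 in
/-- **leaf (A).** -/
theorem h2f_general (hP : PerfPair 𝓛 χ ρV ρW β) (hP' : PerfPair 𝓛 χ ρW ρV β.flip)
    (tr : smHc3 D (chiRep χ) →ₗ[k] k)
    (hpkg : DualityPkg D hP.pd tr) (hpkg' : DualityPkg D hP'.pd tr)
    (hloc : ∀ b : ∀ v, ↥(smH0 (D.rep ρW v)), (∀ c, pair02 D hP'.pd tr b c = 0) → b = 0)
    (hsha : FiniteDimensional k ↥(sha1 D ρW)) :
    FiniteDimensional k (smH2 𝓛 ρV) ∧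
    finrank k (smH2 𝓛 ρV) + finrank k ↥(smH0 ρW) =
      finrank k ↥(sha1 D ρW) + ∑ v, finrank k ↥(smH0 (D.rep ρW v)) := by
  classical
  haveI := hP.finV
  haveI := hP.finW
  -- `H_c¹(W)`
  obtain ⟨hfc1, hc1⟩ := h2fa_hc1 D hP.pd.smW hsha
  -- `H²(V)` is finite-dimensional, `h²(V) ≤ dim H_c¹(W)`
  haveI hfd : Module.Finite k (Module.Dual k (smH2 𝓛 ρV)) :=
    Module.Finite.of_surjective (theta1 D hP'.pd tr) hpkg'.surj1
  haveI hf2 : Module.Finite k (smH2 𝓛 ρV) := (Module.finite_dual_iff k).1 hfd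
  have hle : finrank k (smH2 𝓛 ρV) ≤ finrank k (smHc1 D ρW) := by
    rw [← Subspace.dual_finrank_eq (K := k) (V := smH2 𝓛 ρV)]
    have h1 := LinearMap.finrank_range_le (theta1 D hP'.pd tr)
    rwa [LinearMap.range_eq_top.2 hpkg'.surj1, finrank_top] at h1
  -- `Ш²(V)` and `Ш¹(W)` have the same dimension
  obtain ⟨B, hBl, hBr⟩ := exists_sha_pairing D hP.pd hP'.pd tr hpkg.surj2 hpkg'.surj1
  obtain ⟨-, hsha2⟩ := h2fa_finrank_eq_of_pairing B hBl hBr
  -- the sequence `H²(V) → P²(V) → H⁰(W)^∨`
  have hef := exact_locP2_bdry3 D (ρ := ρV) hP.pd.smV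
  set φ : (∀ v, smH2 (D.lev v) (D.rep ρV v)) →ₗ[k] Module.Dual k ↥(smH0 ρW) :=
    (theta3 D hP.pd tr).comp (bdry3 D (ρ := ρV)) with hφ
  have heφ : Function.Exact (locP2 D (ρ := ρV)) φ := by
    intro b
    rw [← hef b, hφ, LinearMap.comp_apply]
    constructor
    · intro h
      apply hpkg.inj3
      rw [h, map_zero]
    · intro h
      rw [h, map_zero]
  haveI hfP2 : Module.Finite k (∀ v, smH2 (D.lev v) (D.rep ρV v)) :=
    h2fa_finite_of_exact (locP2 D (ρ := ρV)) φ heφ inferInstance
  have h2 := h2fa_finrank_of_exact (locP2 D (ρ := ρV)) φ heφ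
  have hφle : finrank k ↥(LinearMap.range φ) ≤ finrank k ↥(smH0 ρW) := by
    have := Submodule.finrank_le (LinearMap.range φ)
    rwa [Subspace.dual_finrank_eq] at this
  -- `dim P⁰(W) ≤ dim P²(V)`
  have hP0 : finrank k (∀ v, ↥(smH0 (D.rep ρW v))) ≤
      finrank k (∀ v, smH2 (D.lev v) (D.rep ρV v)) := by
    have hinj : Function.Injective (pair02 D hP'.pd tr) := by
      rw [← LinearMap.ker_eq_bot, LinearMap.ker_eq_bot']
      intro b hb
      exact hloc b fun c => by rw [hb, LinearMap.zero_apply]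
    have := LinearMap.finrank_le_finrank_of_injective hinj
    rwa [Subspace.dual_finrank_eq] at this
  have hker : finrank k ↥(LinearMap.ker (locP2 D (ρ := ρV))) = finrank k ↥(sha1 D ρW) := hsha2
  refine ⟨hf2, ?_⟩
  rw [← Module.finrank_pi_fintype k]
  omega

end General

end Fermat.Agent.S56

end
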