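/-
S56 / GEC / block H2F, leaf (B) (row 456, helper18): `h2f_perfPair` VERBATIM from `Gec/H2/Spec.lean`.

The TWISTED induced perfect pair: for representations `ρA, ρA'` of a finite-index subgroup `H` and a
pairing `b : A × A' → k` with `b (ρA h a) (ρA' h a') = χ h * b a a'` (`χ` a character of `G`, NOT
assumed trivial on `H`), the induced pairing `indPairing H ρA ρA' χ b` of `S55/Top/Ind.lean`
(`Σ_{Hg} χ(g)⁻¹ b (F g) (F' g)`) is `χ`-equivariant and non-degenerate when `b` is.  This generalises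
`indPairing_apply / _equivariant / _indDelta_left / _right / _nondeg_left / _right` and
`dev_perfPair_ind` (where `H ≤ ker χ` and `b` is invariant).

Instance: `A = A' = k` (as `𝔽_p`-spaces) with `H` acting through `ψ`, resp. `ψ* = ω ψ⁻¹`,
`b (x, y) = λ (x y)` for a non-zero `𝔽_p`-linear functional `λ : k → 𝔽_p`, `χ = ω = cycloChar p`.
Helper names are prefixed `h2fb_`.
-/
import Fermat.Agent.S55.Top.MainSpec
import Fermat.Agent.S55.Bridge.Pair
import Fermat.Agent.S56.Gec.MainDefs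
import Fermat.Agent.S56.EcDev.Defs

set_option autoImplicit false
set_option linter.style.haveILetI false
set_option linter.unusedSectionVars false

noncomputable section

namespace Fermat.Agent.S56

open Fermat.Agent.S55 ExtCitation Module

/-! ### the twisted induced pairing -/

section Twisted

variable {k : Type*} [Field k] {G : Type*} [Group G] (H : Subgroup G)
  {A A' : Type*} [AddCommGroup A] [Module k A] [AddCommGroup A'] [Module k A']
  (ρA : Representation k H A) (ρA' : Representation k H A')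

/-- the defining formula on a set of right coset representatives (twisted version) -/
theorem h2fb_indPairing_apply [H.FiniteIndex] (χ : G →* kˣ)
    (b : A →ₗ[k] A' →ₗ[k] k)
    (hb : ∀ (h : H) a a', b (ρA h a) (ρA' h a') = ((χ (h : G) : kˣ) : k) * b a a')
    (F : ↥(indSpace H ρA)) (F' : ↥(indSpace H ρA'))
    (T : Finset G) (hT : ∀ g : G, ∃! t, t ∈ T ∧ g * t⁻¹ ∈ H) :
    indPairing H ρA ρA' χ b F F' = ∑ t ∈ T, ((χ t)⁻¹ : kˣ) • b (F.1 t) (F'.1 t) := by
  have hinv : ∀ (h : H) (g : G), indPairingTerm H ρA ρA' χ b ((h : G) * g)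
      = indPairingTerm H ρA ρA' χ b g := by
    intro h g
    refine LinearMap.ext fun F => LinearMap.ext fun F' => ?_
    rw [indPairingTerm_apply, indPairingTerm_apply, F.2 h g, F'.2 h g, hb, map_mul, mul_inv_rev,
      Units.smul_def, Units.smul_def, smul_eq_mul, smul_eq_mul, Units.val_mul, mul_assoc,
      ← mul_assoc (((χ (h : G))⁻¹ : kˣ) : k), Units.inv_mul, one_mul]
  rw [indPairing, finsum_indCosetRep H _ hinv T hT, LinearMap.sum_apply, LinearMap.sum_apply]
  exact Finset.sum_congr rfl fun t _ => indPairingTerm_apply H ρA ρA' χ b t F F'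

theorem h2fb_indPairing_equivariant [H.FiniteIndex] (χ : G →* kˣ)
    (b : A →ₗ[k] A' →ₗ[k] k)
    (hb : ∀ (h : H) a a', b (ρA h a) (ρA' h a') = ((χ (h : G) : kˣ) : k) * b a a') :
    IsEquivariant₂ (indRep H ρA) (indRep H ρA') (chiRep χ) (indPairing H ρA ρA' χ b) := by
  classical
  intro g' F F'
  obtain ⟨T, hT⟩ := exists_isIndTransv H
  rw [h2fb_indPairing_apply H ρA ρA' χ b hb _ _ T hT,
    h2fb_indPairing_apply H ρA ρA' χ b hb F F' _ (hT.mul_right g'), IsIndTransv.sum_mul_right,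
    chiRep_apply, Finset.mul_sum]
  refine Finset.sum_congr rfl fun t _ => ?_
  rw [indRep_apply, indRep_apply, map_mul]
  exact ind_units_smul_aux (χ t) (χ g') _

theorem h2fb_indPairing_indDelta_right [H.FiniteIndex] (χ : G →* kˣ)
    (b : A →ₗ[k] A' →ₗ[k] k)
    (hb : ∀ (h : H) a a', b (ρA h a) (ρA' h a') = ((χ (h : G) : kˣ) : k) * b a a')
    (F : ↥(indSpace H ρA)) (g₀ : G) (a' : A') :
    indPairing H ρA ρA' χ b F (indDelta H ρA' g₀ a') = ((χ g₀)⁻¹ : kˣ) • b (F.1 g₀) a' := by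
  obtain ⟨T, hT, hg₀⟩ := exists_isIndTransv_mem H g₀
  rw [h2fb_indPairing_apply H ρA ρA' χ b hb _ _ T hT, Finset.sum_eq_single g₀,
    indDelta_apply_self]
  · intro t ht hne
    rw [indDelta_apply_of_notMem H ρA' g₀ a' t (fun h => hne (hT.eq_of_mem H ht hg₀ h)),
      map_zero, smul_zero]
  · intro h
    exact absurd hg₀ h

theorem h2fb_indPairing_indDelta_left [H.FiniteIndex] (χ : G →* kˣ)
    (b : A →ₗ[k] A' →ₗ[k] k)
    (hb : ∀ (h : H) a a', b (ρA h a) (ρA' h a') = ((χ (h : G) : kˣ) : k) * b a a')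
    (g₀ : G) (a : A) (F' : ↥(indSpace H ρA')) :
    indPairing H ρA ρA' χ b (indDelta H ρA g₀ a) F' = ((χ g₀)⁻¹ : kˣ) • b a (F'.1 g₀) := by
  obtain ⟨T, hT, hg₀⟩ := exists_isIndTransv_mem H g₀
  rw [h2fb_indPairing_apply H ρA ρA' χ b hb _ _ T hT, Finset.sum_eq_single g₀,
    indDelta_apply_self]
  · intro t ht hne
    rw [indDelta_apply_of_notMem H ρA g₀ a t (fun h => hne (hT.eq_of_mem H ht hg₀ h)),
      map_zero, LinearMap.zero_apply, smul_zero]
  · intro h
    exact absurd hg₀ h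

theorem h2fb_indPairing_nondeg_left [H.FiniteIndex] (χ : G →* kˣ)
    (b : A →ₗ[k] A' →ₗ[k] k)
    (hb : ∀ (h : H) a a', b (ρA h a) (ρA' h a') = ((χ (h : G) : kˣ) : k) * b a a')
    (hnd : ∀ a, (∀ a', b a a' = 0) → a = 0) (F : ↥(indSpace H ρA))
    (hF : ∀ F', indPairing H ρA ρA' χ b F F' = 0) : F = 0 := by
  apply Subtype.ext
  funext g
  refine hnd (F.1 g) fun a' => ?_
  have h1 := hF (indDelta H ρA' g a')
  rw [h2fb_indPairing_indDelta_right H ρA ρA' χ b hb, smul_eq_zero_iff_eq] at h1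
  exact h1

theorem h2fb_indPairing_nondeg_right [H.FiniteIndex] (χ : G →* kˣ)
    (b : A →ₗ[k] A' →ₗ[k] k)
    (hb : ∀ (h : H) a a', b (ρA h a) (ρA' h a') = ((χ (h : G) : kˣ) : k) * b a a')
    (hnd : ∀ a', (∀ a, b a a' = 0) → a' = 0) (F' : ↥(indSpace H ρA'))
    (hF : ∀ F, indPairing H ρA ρA' χ b F F' = 0) : F' = 0 := by
  apply Subtype.ext
  funext g
  refine hnd (F'.1 g) fun a => ?_
  have h1 := hF (indDelta H ρA g a)
  rw [h2fb_indPairing_indDelta_left H ρA ρA' χ b hb, smul_eq_zero_iff_eq] at h1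
  exact h1

end Twisted

/-! ### the twisted induced perfect pair -/

section PerfPairInd

universe u

variable {k : Type u} [Field k] [Finite k] {G : Type u} [Group G] (𝓛 : Levels G) (χ : G →* kˣ)

/-- `Ind` of a perfect `χ`-twisted pairing of finite-dimensional smooth representations of an
open subgroup `H` is a perfect pair (no condition `H ≤ ker χ`) -/
theorem h2fb_perfPair_ind (hχ : ∃ U, 𝓛.IsLevel U ∧ U ≤ χ.ker) (H : Subgroup G)
    (hH : 𝓛.IsOpen H)
    {A A' : Type u} [AddCommGroup A] [Module k A] [AddCommGroup A'] [Module k A']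
    [FiniteDimensional k A] [FiniteDimensional k A']
    (ρA : Representation k H A) (ρA' : Representation k H A')
    (hA : IsSmoothRep (𝓛.sub H) ρA) (hA' : IsSmoothRep (𝓛.sub H) ρA')
    (b : A →ₗ[k] A' →ₗ[k] k)
    (hb : ∀ (h : H) a a', b (ρA h a) (ρA' h a') = ((χ (h : G) : kˣ) : k) * b a a')
    (hndl : ∀ a, (∀ a', b a a' = 0) → a = 0) (hndr : ∀ a', (∀ a, b a a' = 0) → a' = 0) :
    PerfPair 𝓛 χ (indRep H ρA) (indRep H ρA') (indPairing H ρA ρA' χ b) := by
  have hfi : H.FiniteIndex := dev_finiteIndex_of_isOpen 𝓛 H hH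
  exact
    { finV := indSpace_finiteDimensional H ρA
      finW := indSpace_finiteDimensional H ρA'
      pd :=
        { smV := indRep_isSmooth H ρA 𝓛 hH hA
          smW := indRep_isSmooth H ρA' 𝓛 hH hA'
          smZ := dev_chiRep_isSmooth 𝓛 χ hχ
          equiv := h2fb_indPairing_equivariant H ρA ρA' χ b hb }
      nondeg_left := fun F hF => h2fb_indPairing_nondeg_left H ρA ρA' χ b hb hndl F hF
      nondeg_right := fun F' hF' => h2fb_indPairing_nondeg_right H ρA ρA' χ b hb hndr F' hF' }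

end PerfPairInd

/-! ### the instance `(Ind_H ψ, Ind_H ωψ⁻¹)` -/

section Pair

variable {p : ℕ} [Fact p.Prime] (S : Finset Nat.Primes) {k : Type} [Field k] [Algebra (ZMod p) k]
  {H : Subgroup GQ}

/-- the pairing `b (x, y) = λ (x y)` on `k` -/
def h2fbForm (lam : k →ₗ[ZMod p] ZMod p) : k →ₗ[ZMod p] k →ₗ[ZMod p] ZMod p :=
  (LinearMap.mul (ZMod p) k).compr₂ lam

@[simp] theorem h2fbForm_apply (lam : k →ₗ[ZMod p] ZMod p) (x y : k) :
    h2fbForm lam x y = lam (x * y) := rfl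

theorem h2fbForm_flip (lam : k →ₗ[ZMod p] ZMod p) : (h2fbForm lam).flip = h2fbForm lam := by
  refine LinearMap.ext fun x => LinearMap.ext fun y => ?_
  rw [LinearMap.flip_apply, h2fbForm_apply, h2fbForm_apply, mul_comm]

theorem h2fbForm_nondeg (lam : k →ₗ[ZMod p] ZMod p) (hlam : lam ≠ 0) (x : k)
    (hx : ∀ y, h2fbForm lam x y = 0) : x = 0 := by
  by_contra hne
  apply hlam
  refine LinearMap.ext fun z => ?_
  have := hx (x⁻¹ * z)
  rwa [h2fbForm_apply, ← mul_assoc, mul_inv_cancel₀ hne, one_mul] at this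

theorem h2fb_exists_lam [FiniteDimensional (ZMod p) k] : ∃ lam : k →ₗ[ZMod p] ZMod p, lam ≠ 0 := by
  by_contra hcon
  simp only [not_exists, ne_eq, not_not] at hcon
  have h1 : (1 : k) = 0 :=
    (Module.forall_dual_apply_eq_zero_iff (ZMod p) (1 : k)).1 fun φ => by
      rw [hcon φ, LinearMap.zero_apply]
  exact one_ne_zero h1

/-- the twist: `b (ψ(h) x, ψ*(h) y) = ω(h) b (x, y)` -/
theorem h2fb_twist (lam : k →ₗ[ZMod p] ZMod p) (ψ : ↥H →* kˣ) (h : ↥H) (x y : k) :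
    h2fbForm lam (ecdChar (ZMod p) ψ h x) (ecdChar (ZMod p) (gecStar p ψ) h y) =
      ((cycloChar p (h : GQ) : (ZMod p)ˣ) : ZMod p) * h2fbForm lam x y := by
  rw [h2fbForm_apply, h2fbForm_apply, ecdChar_apply, ecdChar_apply, gecStar_apply, Units.val_mul,
    gecOmega_apply]
  have h1 : ((ψ h : kˣ) : k) * x *
      (algebraMap (ZMod p) k ((cycloChar p (h : GQ) : (ZMod p)ˣ) : ZMod p) *
        (((ψ h)⁻¹ : kˣ) : k) * y) =
      ((cycloChar p (h : GQ) : (ZMod p)ˣ) : ZMod p) • (x * y) := by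
    rw [Algebra.smul_def]
    have h2 : ((ψ h : kˣ) : k) * (((ψ h)⁻¹ : kˣ) : k) = 1 := Units.mul_inv _
    calc _ = algebraMap (ZMod p) k ((cycloChar p (h : GQ) : (ZMod p)ˣ) : ZMod p) *
          ((((ψ h : kˣ) : k) * (((ψ h)⁻¹ : kˣ) : k)) * (x * y)) := by ring
      _ = _ := by rw [h2, one_mul]
  rw [h1, map_smul, smul_eq_mul]

/-- smoothness of a character trivial on a level -/
theorem h2fb_isSmooth_ecdChar (ψ : ↥H →* kˣ)
    (hψ : ∃ U, (levelsS S).IsLevel U ∧ ∀ h : ↥H, (h : GQ) ∈ U → ψ h = 1) :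
    IsSmoothRep ((levelsS S).sub H) (ecdChar (ZMod p) ψ) := by
  obtain ⟨U, hU, hUψ⟩ := hψ
  intro x
  refine ⟨U.subgroupOf H, ⟨U, hU, rfl⟩, fun s hs => ?_⟩
  rw [ecdChar_apply, hUψ s (Subgroup.mem_subgroupOf.1 hs), Units.val_one, one_mul]

/-- `ψ* = ω ψ⁻¹` is trivial on a level -/
theorem h2fb_star_smooth (hpS : pPrime p ∈ S) (ψ : ↥H →* kˣ)
    (hψ : ∃ U, (levelsS S).IsLevel U ∧ ∀ h : ↥H, (h : GQ) ∈ U → ψ h = 1) :
    ∃ U, (levelsS S).IsLevel U ∧ ∀ h : ↥H, (h : GQ) ∈ U → gecStar p ψ h = 1 := by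
  obtain ⟨U, hU, hUψ⟩ := hψ
  obtain ⟨U', hU', hU'χ⟩ := cycloChar_smooth (p := p) S hpS
  obtain ⟨W, hW, hWle⟩ := (levelsS S).exists_le_inf U U' hU hU'
  refine ⟨W, hW, fun h hh => ?_⟩
  have h1 : cycloChar p (h : GQ) = 1 := MonoidHom.mem_ker.1 (hU'χ (hWle hh).2)
  rw [gecStar_apply, hUψ h (hWle hh).1, inv_one, mul_one]
  apply Units.ext
  rw [gecOmega_apply, h1, Units.val_one, map_one, Units.val_one]

/-- **leaf (B).** -/
theorem h2f_perfPair [FiniteDimensional (ZMod p) k] (hpS : pPrime p ∈ S)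
    (hH : (levelsS S).IsOpen H)
    (ψ : ↥H →* kˣ) (hψ : ∃ U, (levelsS S).IsLevel U ∧ ∀ h : ↥H, (h : GQ) ∈ U → ψ h = 1) :
    ∃ β : ↥(indSpace H (ecdChar (ZMod p) ψ)) →ₗ[ZMod p]
        ↥(indSpace H (ecdChar (ZMod p) (gecStar p ψ))) →ₗ[ZMod p] ZMod p,
      PerfPair (levelsS S) (cycloChar p) (indRep H (ecdChar (ZMod p) ψ))
        (indRep H (ecdChar (ZMod p) (gecStar p ψ))) β ∧
      PerfPair (levelsS S) (cycloChar p) (indRep H (ecdChar (ZMod p) (gecStar p ψ)))
        (indRep H (ecdChar (ZMod p) ψ)) β.flip := by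
  obtain ⟨lam, hlam⟩ := h2fb_exists_lam (p := p) (k := k)
  have hχ := cycloChar_smooth (p := p) S hpS
  have hψs := h2fb_star_smooth S hpS ψ hψ
  have hnd : ∀ x, (∀ y, h2fbForm lam x y = 0) → x = 0 := h2fbForm_nondeg lam hlam
  have hnd' : ∀ y, (∀ x, h2fbForm lam x y = 0) → y = 0 := by
    intro y hy
    refine hnd y fun x => ?_
    have := hy x
    rwa [h2fbForm_apply, mul_comm] at this
  refine ⟨indPairing H (ecdChar (ZMod p) ψ) (ecdChar (ZMod p) (gecStar p ψ)) (cycloChar p)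
    (h2fbForm lam), ?_, ?_⟩
  · exact h2fb_perfPair_ind (levelsS S) (cycloChar p) hχ H hH _ _
      (h2fb_isSmooth_ecdChar S ψ hψ) (h2fb_isSmooth_ecdChar S (gecStar p ψ) hψs)
      (h2fbForm lam) (fun h x y => h2fb_twist lam ψ h x y) hnd hnd'
  · rw [indPairing_flip, h2fbForm_flip]
    refine h2fb_perfPair_ind (levelsS S) (cycloChar p) hχ H hH _ _
      (h2fb_isSmooth_ecdChar S (gecStar p ψ) hψs) (h2fb_isSmooth_ecdChar S ψ hψ)
      (h2fbForm lam) (fun h x y => ?_) hnd hnd'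
    have := h2fb_twist lam ψ h y x
    rwa [h2fbForm_apply, h2fbForm_apply, mul_comm, mul_comm y x] at this

end Pair

end Fermat.Agent.S56

end
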