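/-
S56 / GEC / block H2F (row 433): restriction of scalars `k/𝔽_p` for `Ш¹` and for the local `H⁰`
(prefix `h2ft`).  Complements `Ec/Scalars.lean`.

* `h2ftQuotEquiv`     : a subquotient over `R` and the same subquotient over `S` (`S`-linear equivalence);
* `h2ftShaZ`, `h2ftShaEquiv` : `Ш¹(D, ρ)` as a subquotient of `G → V`;
* `h2ft_finrank_sha1`, `h2ft_finite_sha1` : `dim_k Ш¹(D, ecdChar k ψ) = [k':k] dim_{k'} Ш¹(D, chiRep ψ)`;
* `h2ft_finrank_locH0`: the same for the local `H⁰`;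
* `h2ft_finite_smH2`  : finiteness of `H²` descends.
-/
import Fermat.Agent.S56.Ec.Scalars
import Fermat.Agent.S55.Top.Final

set_option autoImplicit false
set_option linter.style.haveILetI false

noncomputable section

namespace Fermat.Agent.S56

open Fermat.Agent.S55 Module

section Abstract

variable {S R M : Type*} [Field S] [Field R] [Algebra S R] [AddCommGroup M] [Module R M]
  [Module S M] [IsScalarTower S R M]

/-- a subquotient over `R` and the same subquotient over `S` -/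
def h2ftQuotEquiv (Z B : Submodule S M) (Z' B' : Submodule R M)
    (hZ : ∀ x, x ∈ Z ↔ x ∈ Z') (hB : ∀ x, x ∈ B ↔ x ∈ B') :
    (↥Z ⧸ B.comap Z.subtype) ≃ₗ[S] (↥Z' ⧸ B'.comap Z'.subtype) := by
  let φ : ↥Z →ₗ[S] (↥Z' ⧸ B'.comap Z'.subtype) :=
    { toFun := fun x => Submodule.Quotient.mk ⟨x.1, (hZ _).1 x.2⟩
      map_add' := fun x y => rfl
      map_smul' := fun c x => rfl }
  have hsurj : Function.Surjective φ := by
    intro y
    obtain ⟨z, rfl⟩ := Submodule.mkQ_surjective _ y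
    exact ⟨⟨z.1, (hZ _).2 z.2⟩, rfl⟩
  have hker : LinearMap.ker φ = B.comap Z.subtype := by
    ext x
    rw [LinearMap.mem_ker]
    show Submodule.Quotient.mk _ = 0 ↔ _
    rw [Submodule.Quotient.mk_eq_zero, Submodule.mem_comap, Submodule.mem_comap]
    exact (hB _).symm
  exact (Submodule.quotEquivOfEq _ _ hker.symm).trans (φ.quotKerEquivOfSurjective hsurj)

theorem h2ft_finite_down (Z B : Submodule S M) (Z' B' : Submodule R M)
    (hZ : ∀ x, x ∈ Z ↔ x ∈ Z') (hB : ∀ x, x ∈ B ↔ x ∈ B')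
    (h : Module.Finite S (↥Z ⧸ B.comap Z.subtype)) :
    Module.Finite R (↥Z' ⧸ B'.comap Z'.subtype) := by
  haveI : Module.Finite S (↥Z' ⧸ B'.comap Z'.subtype) :=
    Module.Finite.equiv (h2ftQuotEquiv Z B Z' B' hZ hB)
  exact Module.Finite.of_restrictScalars_finite S R _

theorem h2ft_finite_up [Module.Finite S R] (Z B : Submodule S M) (Z' B' : Submodule R M)
    (hZ : ∀ x, x ∈ Z ↔ x ∈ Z') (hB : ∀ x, x ∈ B ↔ x ∈ B')
    (h : Module.Finite R (↥Z' ⧸ B'.comap Z'.subtype)) :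
    Module.Finite S (↥Z ⧸ B.comap Z.subtype) := by
  haveI : Module.Finite S (↥Z' ⧸ B'.comap Z'.subtype) := Module.Finite.trans R _
  exact Module.Finite.equiv (h2ftQuotEquiv Z B Z' B' hZ hB).symm

end Abstract

/-! ### `Ш¹` as a subquotient -/

section ShaZ

variable {k : Type*} [Field k] {G : Type*} [Group G] {𝓛 : Levels G} {ι : Type*}
  {Γ : ι → Type*} [∀ v, Group (Γ v)] (D : LocSys 𝓛 ι Γ)
  {V : Type*} [AddCommGroup V] [Module k V] (ρ : Representation k G V)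

/-- the smooth `1`-cocycles that are locally coboundaries -/
def h2ftShaZ : Submodule k (G → V) :=
  smZ1 𝓛 ρ ⊓ ⨅ v, (smB1 (D.rep ρ v)).comap (res1 k (D.r v))

theorem mem_h2ftShaZ (f : G → V) :
    f ∈ h2ftShaZ D ρ ↔ f ∈ smZ1 𝓛 ρ ∧ ∀ v, res1 k (D.r v) f ∈ smB1 (D.rep ρ v) := by
  simp only [h2ftShaZ, Submodule.mem_inf, Submodule.mem_iInf, Submodule.mem_comap]

theorem h2ft_mk_mem_sha1_iff (f : ↥(smZ1 𝓛 ρ)) :
    smH1π 𝓛 ρ f ∈ sha1 D ρ ↔ ∀ v, res1 k (D.r v) (f : G → V) ∈ smB1 (D.rep ρ v) := by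
  show locP1 D (ρ := ρ) (smH1π 𝓛 ρ f) = 0 ↔ _
  rw [cone_locP1_mk, funext_iff]
  refine forall_congr' fun v => ?_
  exact smH1π_eq_zero_iff (D.lev v) (D.rep ρ v) (smZ1res ρ (D.cont v) f)

/-- the class map `h2ftShaZ → Ш¹` -/
def h2ftShaMap : ↥(h2ftShaZ D ρ) →ₗ[k] ↥(sha1 D ρ) :=
  LinearMap.codRestrict (sha1 D ρ)
    ((smH1π 𝓛 ρ).comp (Submodule.inclusion (inf_le_left : h2ftShaZ D ρ ≤ smZ1 𝓛 ρ)))
    (fun f => (h2ft_mk_mem_sha1_iff D ρ _).2 ((mem_h2ftShaZ D ρ _).1 f.2).2)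

theorem h2ftShaMap_surjective : Function.Surjective (h2ftShaMap D ρ) := by
  rintro ⟨x, hx⟩
  obtain ⟨f, rfl⟩ := Submodule.mkQ_surjective _ x
  refine ⟨⟨f.1, (mem_h2ftShaZ D ρ _).2 ⟨f.2, (h2ft_mk_mem_sha1_iff D ρ f).1 hx⟩⟩, ?_⟩
  apply Subtype.ext
  rfl

theorem h2ftShaMap_ker :
    LinearMap.ker (h2ftShaMap D ρ) = (smB1 ρ).comap (h2ftShaZ D ρ).subtype := by
  ext f
  rw [LinearMap.mem_ker, Submodule.mem_comap]
  have h1 : h2ftShaMap D ρ f = 0 ↔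
      smH1π 𝓛 ρ (Submodule.inclusion (inf_le_left : h2ftShaZ D ρ ≤ smZ1 𝓛 ρ) f) = 0 := by
    rw [← Subtype.coe_inj]
    rfl
  rw [h1, smH1π_eq_zero_iff]
  rfl

/-- `Ш¹(D, ρ)` as a subquotient of `G → V` -/
def h2ftShaEquiv :
    (↥(h2ftShaZ D ρ) ⧸ (smB1 ρ).comap (h2ftShaZ D ρ).subtype) ≃ₗ[k] ↥(sha1 D ρ) :=
  (Submodule.quotEquivOfEq _ _ (h2ftShaMap_ker D ρ).symm).trans
    ((h2ftShaMap D ρ).quotKerEquivOfSurjective (h2ftShaMap_surjective D ρ))

end ShaZ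

/-! ### restriction of scalars for characters -/

section Char

variable {k : Type*} [Field k] {k' : Type*} [Field k'] [Algebra k k'] {G : Type*} [Group G]
  {𝓛 : Levels G} {ι : Type*} {Γ : ι → Type*} [∀ v, Group (Γ v)] (D : LocSys 𝓛 ι Γ)
  (ψ : G →* k'ˣ)

theorem h2ft_mem_shaZ_iff (f : G → k') :
    f ∈ h2ftShaZ D (ecdChar k ψ) ↔ f ∈ h2ftShaZ D (chiRep ψ) := by
  rw [mem_h2ftShaZ, mem_h2ftShaZ, mem_smZ1, mem_smZ1, ecgs_dd1]
  refine and_congr_right fun _ => forall_congr' fun v => ?_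
  rw [mem_smB1, mem_smB1]
  refine exists_congr fun m => ?_
  have : dd0 (D.rep (ecdChar k ψ) v) m = dd0 (D.rep (chiRep ψ) v) m := by
    funext g
    simp only [dd0_apply, MonoidHom.comp_apply, ecdChar_apply, chiRep_apply]
  rw [this]
  exact Iff.rfl

theorem h2ft_mem_smB1_iff (f : G → k') : f ∈ smB1 (ecdChar k ψ) ↔ f ∈ smB1 (chiRep ψ) := by
  rw [mem_smB1, mem_smB1]
  simp only [ecgs_dd0]

/-- `Ш¹` -/
theorem h2ft_finrank_sha1 :
    finrank k ↥(sha1 D (ecdChar k ψ)) = finrank k k' * finrank k' ↥(sha1 D (chiRep ψ)) := by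
  rw [← LinearEquiv.finrank_eq (h2ftShaEquiv D (ecdChar k ψ)),
    ← LinearEquiv.finrank_eq (h2ftShaEquiv D (chiRep ψ))]
  exact ecgs_finrank_quot _ _ _ _ (h2ft_mem_shaZ_iff D ψ) (h2ft_mem_smB1_iff ψ)

theorem h2ft_finite_sha1 [Module.Finite k k'] (h : Module.Finite k' ↥(sha1 D (chiRep ψ))) :
    Module.Finite k ↥(sha1 D (ecdChar k ψ)) := by
  haveI : Module.Finite k' (↥(h2ftShaZ D (chiRep ψ)) ⧸
      (smB1 (chiRep ψ)).comap (h2ftShaZ D (chiRep ψ)).subtype) :=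
    Module.Finite.equiv (h2ftShaEquiv D (chiRep ψ)).symm
  haveI := h2ft_finite_up (S := k) _ _ _ _ (h2ft_mem_shaZ_iff D ψ) (h2ft_mem_smB1_iff (k := k) ψ)
    this
  exact Module.Finite.equiv (h2ftShaEquiv D (ecdChar k ψ))

/-- the local `H⁰` -/
theorem h2ft_finrank_locH0 (v : ι) :
    finrank k ↥(smH0 (D.rep (ecdChar k ψ) v)) =
      finrank k k' * finrank k' ↥(smH0 (D.rep (chiRep ψ) v)) := by
  refine ecgs_finrank_sub _ _ (fun x => ?_)
  show dd0 (D.rep (ecdChar k ψ) v) x = 0 ↔ dd0 (D.rep (chiRep ψ) v) x = 0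
  have : dd0 (D.rep (ecdChar k ψ) v) x = dd0 (D.rep (chiRep ψ) v) x := by
    funext g
    simp only [dd0_apply, MonoidHom.comp_apply, ecdChar_apply, chiRep_apply]
  rw [this]

/-- finiteness of `H²` descends -/
theorem h2ft_finite_smH2 (h : Module.Finite k (smH2 𝓛 (ecdChar k ψ))) :
    Module.Finite k' (smH2 𝓛 (chiRep ψ)) := by
  refine h2ft_finite_down (S := k) _ _ _ _ (fun x => ?_) (fun x => ?_) h
  · rw [mem_smZ2, mem_smZ2, ecgs_dd2]
  · rw [mem_smB2, mem_smB2]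
    simp only [ecgs_dd1]

end Char

end Fermat.Agent.S56

end
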